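import Fermat.Agent.S48.FIN.Main
import Fermat.Agent.S48.MF.Main
import Fermat.Agent.S48.Gal.Main

/-!
# S48 : assembly of (I1)-(I6)
-/

set_option autoImplicit false

open CongruenceSubgroup
open scoped MatrixGroups

namespace Fermat.Agent.S48

theorem final
    (N : ℕ) [NeZero N] (ε : DirichletCharacter ℂ N) (f : CuspForm (Gamma1 N) 1)
    (hf₁ : ModularFormClass.qCoeff f 1 = 1)
    (hT : ∀ p : ℕ, p.Prime → ¬ p ∣ N → ∀ n : ℕ,
        ModularFormClass.qCoeff f (p * n) +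
            ε (p : ZMod N) * (if p ∣ n then ModularFormClass.qCoeff f (n / p) else 0) =
          ModularFormClass.qCoeff f p * ModularFormClass.qCoeff f n) :
    ∃ ρ : GQ →* GL (Fin 2) ℂ, GaloisFactorsThroughFiniteLevel ρ ∧
      (Deformation.matrixRepresentation ρ).IsIrreducible ∧
      ∀ p : ℕ, p.Prime → ¬ p ∣ N →
        ∀ A : ValuationSubring (AlgebraicClosure ℚ), A.LiesOverPrime p →
          (∀ σ ∈ A.inertiaSubgroupIn ℚ, ρ σ = 1) ∧
          ∀ σ : GQ, A.IsFrobeniusAt σ p →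
            ((ρ σ : GL (Fin 2) ℂ) : Matrix (Fin 2) (Fin 2) ℂ).trace = ModularFormClass.qCoeff f p ∧
            ((ρ σ : GL (Fin 2) ℂ) : Matrix (Fin 2) (Fin 2) ℂ).det = ε (p : ZMod N) := by
  have hf : IsFormalEigen N ε f := ⟨hf₁, hT⟩
  refine FIN.main N (NeZero.ne N) (fun p => ModularFormClass.qCoeff f p)
    (fun p => ε (p : ZMod N)) ?_ (MF.isIntegral_qCoeff N ε f hf) (MF.rankin_conj N ε f hf)
    (MF.exists_finset N ε f hf) (Gal.hasModReps N ε f hf)
  refine ⟨Nat.totient N, Nat.totient_pos.mpr (Nat.pos_of_ne_zero (NeZero.ne N)), ?_⟩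
  intro p hp hpN
  have hu : IsUnit (p : ZMod N) :=
    (ZMod.isUnit_iff_coprime p N).mpr ((Nat.Prime.coprime_iff_not_dvd hp).mpr hpN)
  obtain ⟨u, hu⟩ := hu
  rw [← hu, ← map_pow, ← Units.val_pow_eq_pow_val, ZMod.pow_totient, Units.val_one, map_one]

end Fermat.Agent.S48
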