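import Mathlib
import Fermat.Prelude.Def_GaloisRep_Residual
import Fermat.Prelude.Def_Deformations_MatrixRepresentation

/-!
# S48 (Deligne-Serre): shared vocabulary of the top level

* `Qb`, `GQ`, `Zbar`      : `ℚ̄`, `Gal(ℚ̄/ℚ)`, the ring of algebraic integers in `ℂ`
* `lg s = log (1/(s-1))`
* `psum P w s = ∑_{p prime, P p} w p * p^(-s)`
* `UpperDens P w c`, `LowerDens P w c` : `psum P w s ≤ c * lg s + C`, resp. `≥ c * lg s - C`, on `1 < s ≤ 2`
* `IsFormalEigen N ε f`   : the hypotheses of S48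
* `FrobIn r p T`          : some Frobenius element at `p` is mapped into `T` by `r`
* `IsModRep N a e ℓ φ r`, `HasModReps N a e` : the mod `ℓ` representations attached to the system `(a_p, e_p)`
* `IsDivStable D`         : `D` is a union of divisions (Frobenius density theorem)
-/

set_option autoImplicit false

open CongruenceSubgroup
open scoped MatrixGroups

namespace Fermat.Agent.S48

noncomputable section

/-- `ℚ̄`. -/
abbrev Qb : Type := AlgebraicClosure ℚ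

/-- The absolute Galois group of `ℚ`. -/
abbrev GQ : Type := Qb ≃ₐ[ℚ] Qb

/-- The ring of algebraic integers in `ℂ`. -/
abbrev Zbar : Type := integralClosure ℤ ℂ

/-- `log (1/(s-1))`. -/
def lg (s : ℝ) : ℝ := Real.log (1 / (s - 1))

open Classical in
/-- The general term of `psum`. -/
def pterm (P : ℕ → Prop) (w : ℕ → ℝ) (s : ℝ) (p : ℕ) : ℝ :=
  if p.Prime ∧ P p then w p * (p : ℝ) ^ (-s) else 0

/-- `∑_{p prime, P p} w p * p^(-s)`. -/
def psum (P : ℕ → Prop) (w : ℕ → ℝ) (s : ℝ) : ℝ := ∑' p : ℕ, pterm P w s p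

/-- `∑_{p prime, P p} w p p^(-s) ≤ c log (1/(s-1)) + O(1)` (with convergence). -/
def UpperDens (P : ℕ → Prop) (w : ℕ → ℝ) (c : ℝ) : Prop :=
  ∃ C : ℝ, ∀ s : ℝ, 1 < s → s ≤ 2 → Summable (pterm P w s) ∧ psum P w s ≤ c * lg s + C

/-- `∑_{p prime, P p} w p p^(-s) ≥ c log (1/(s-1)) - O(1)` (with convergence). -/
def LowerDens (P : ℕ → Prop) (w : ℕ → ℝ) (c : ℝ) : Prop :=
  ∃ C : ℝ, ∀ s : ℝ, 1 < s → s ≤ 2 → Summable (pterm P w s) ∧ c * lg s - C ≤ psum P w s

/-- The hypotheses of S48 on `(N, ε, f)`. -/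
def IsFormalEigen (N : ℕ) (ε : DirichletCharacter ℂ N) (f : CuspForm (Gamma1 N) 1) : Prop :=
  ModularFormClass.qCoeff f 1 = 1 ∧
    ∀ p : ℕ, p.Prime → ¬ p ∣ N → ∀ n : ℕ,
      ModularFormClass.qCoeff f (p * n) +
          ε (p : ZMod N) * (if p ∣ n then ModularFormClass.qCoeff f (n / p) else 0) =
        ModularFormClass.qCoeff f p * ModularFormClass.qCoeff f n

/-- Some Frobenius element at `p` is mapped into `T` by `r`. -/
def FrobIn {G : Type} [Group G] (r : GQ →* G) (T : Set G) (p : ℕ) : Prop :=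
  ∃ (A : ValuationSubring Qb) (σ : GQ), A.LiesOverPrime p ∧ A.IsFrobeniusAt σ p ∧ r σ ∈ T

/-- `r : G → GL₂(k)` is semisimple, in elementary form: irreducible or diagonal. -/
def IsSS {G k : Type} [Group G] [Field k] (r : G →* GL (Fin 2) k) : Prop :=
  (∀ W : Submodule k (Fin 2 → k),
      (∀ g : G, ∀ x ∈ W, ((r g : GL (Fin 2) k) : Matrix (Fin 2) (Fin 2) k).mulVec x ∈ W) →
        W = ⊥ ∨ W = ⊤) ∨
    ∀ g : G, ((r g : GL (Fin 2) k) : Matrix (Fin 2) (Fin 2) k) 0 1 = 0 ∧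
      ((r g : GL (Fin 2) k) : Matrix (Fin 2) (Fin 2) k) 1 0 = 0

/-- `r` is **the mod `ℓ` representation** attached (along `φ`) to a system `(a_p, e_p)_{p ∤ N}` of
algebraic integers. -/
structure IsModRep (N : ℕ) (a e : ℕ → ℂ) (ℓ : ℕ) {k : Type} [Field k] (φ : Zbar →+* k)
    (r : GQ →* GL (Fin 2) k) : Prop where
  level : GaloisFactorsThroughFiniteLevel r
  ss : IsSS r
  unram : ∀ p : ℕ, p.Prime → ¬ p ∣ N * ℓ → ∀ A : ValuationSubring Qb, A.LiesOverPrime p →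
    ∀ σ ∈ A.inertiaSubgroupIn ℚ, r σ = 1
  frob : ∀ p : ℕ, p.Prime → ¬ p ∣ N * ℓ → ∀ A : ValuationSubring Qb, A.LiesOverPrime p →
    ∀ σ : GQ, A.IsFrobeniusAt σ p → ∀ x y : Zbar, (x : ℂ) = a p → (y : ℂ) = e p →
      ((r σ : GL (Fin 2) k) : Matrix (Fin 2) (Fin 2) k).trace = φ x ∧
      ((r σ : GL (Fin 2) k) : Matrix (Fin 2) (Fin 2) k).det = φ y

/-- **(I4)**: for all large primes `ℓ` and EVERY reduction map `φ : ℤ̄ ↠ k` in characteristic `ℓ` the
system `(a_p, e_p)` has a mod `ℓ` representation. -/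
def HasModReps (N : ℕ) (a e : ℕ → ℂ) : Prop :=
  ∃ ℓ₀ : ℕ, ∀ ℓ : ℕ, ℓ.Prime → ℓ₀ < ℓ → ∀ (k : Type) [Field k] [CharP k ℓ] [IsAlgClosed k]
    (φ : Zbar →+* k), Function.Surjective φ → ∃ r : GQ →* GL (Fin 2) k, IsModRep N a e ℓ φ r

/-- `D ⊆ G` is a union of *divisions*: stable under conjugation and under `g ↦ g ^ j`, `j` prime to the
order of `g`. -/
def IsDivStable {G : Type} [Group G] (D : Set G) : Prop :=
  (∀ g h : G, h ∈ D → g * h * g⁻¹ ∈ D) ∧ ∀ (h : G) (j : ℕ), h ∈ D → j.Coprime (orderOf h) → h ^ j ∈ D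

end

end Fermat.Agent.S48
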